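import Mathlib
import Fermat.Agent.LT.T7.H910.DownArchCut

/-!
# Row LT, tower T7, leaf T7.L2.1.H2a.A.0.D.4.2 `H910.ArchEnumC910` (registry row 3045, helper519)

OFF-MAIN.  No hole, nothing assumed.  ADDITIVE (new names only, suffix `519`, namespace
`Fermat.Agent.LT.T7.H910.H519`).

    archEnumC519 (K K') : H910.ArchEnumC910 K K'        (VERBATIM, unconditional)

`K'/K` Galois of degree `ℓ`, `v` a COMPLEX place of `K`.  The fibre of `v` is an orbit of
`Gal(K'/K)` (`InfinitePlace.mem_orbit_iff`), the stabiliser of a place over a complex place is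
trivial (`InfinitePlace.isUnramified_iff`, `isUnramified_iff_card_stabilizer_eq_one`), hence the
fibre has `[K' : K] = ℓ` elements (orbit-stabiliser, `IsGalois.card_aut_eq_finrank`); an
enumeration is a bijection with `Fin ℓ`, extended by a place of the fibre for `j ≥ ℓ`.
Mathlib only; the hypothesis `ℓ ≠ 2` is not used and only `v.IsComplex` is used of `TotCplx K`.
-/

set_option autoImplicit false

open NumberField

noncomputable section

namespace Fermat.Agent.LT.T7.H910.H519

open Fermat.Agent.LT Fermat.Agent.LT.T7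

variable {K K' : Type} [Field K] [NumberField K] [Field K'] [NumberField K'] [Algebra K K']

/-- The fibre of a complex place in a Galois extension has `[K' : K]` elements. -/
theorem card_fibre519 [IsGalois K K'] (v : InfinitePlace K) (hv : v.IsComplex) :
    Nat.card {w : InfinitePlace K' // w.comap (algebraMap K K') = v} = Module.finrank K K' := by
  have : FiniteDimensional K K' := Module.Finite.of_restrictScalars_finite ℚ K K'
  obtain ⟨w₀, hw₀⟩ := InfinitePlace.comap_surjective (K := K') (k := K) v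
  have hw₀' : w₀.comap (algebraMap K K') = v := hw₀
  have hunr : InfinitePlace.IsUnramified K w₀ :=
    InfinitePlace.isUnramified_iff.2 (Or.inr (by rw [hw₀']; exact hv))
  have hstab : Nat.card (MulAction.stabilizer (K' ≃ₐ[K] K') w₀) = 1 :=
    InfinitePlace.isUnramified_iff_card_stabilizer_eq_one.1 hunr
  have hcard : Nat.card (MulAction.orbit (K' ≃ₐ[K] K') w₀)
      * Nat.card (MulAction.stabilizer (K' ≃ₐ[K] K') w₀) = Nat.card (K' ≃ₐ[K] K') := by
    rw [← Nat.card_prod]
    exact Nat.card_congr (MulAction.orbitProdStabilizerEquivGroup (K' ≃ₐ[K] K') w₀)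
  rw [hstab, mul_one, IsGalois.card_aut_eq_finrank] at hcard
  rw [← hcard]
  refine Nat.card_congr (Equiv.subtypeEquivRight fun w => ?_)
  rw [InfinitePlace.mem_orbit_iff, hw₀']
  exact ⟨fun h => h.symm, fun h => h.symm⟩

/-- **LEAF DA.2 = ENUMERATION OF THE FIBRE**, verbatim. -/
theorem archEnumC519 (K K' : Type) [Field K] [NumberField K] [Field K'] [NumberField K']
    [Algebra K K'] : H910.ArchEnumC910 K K' := by
  intro ℓ hcyc _ htc v
  have : IsGalois K K' := hcyc.galois
  obtain ⟨w₀, hw₀⟩ := InfinitePlace.comap_surjective (K := K') (k := K) v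
  have hw₀' : w₀.comap (algebraMap K K') = v := hw₀
  have hcard : Nat.card {w : InfinitePlace K' // w.comap (algebraMap K K') = v} = ℓ := by
    rw [card_fibre519 v (htc v), hcyc.degree]
  have : Finite {w : InfinitePlace K' // w.comap (algebraMap K K') = v} :=
    Nat.finite_of_card_ne_zero (by rw [hcard]; exact hcyc.prime.ne_zero)
  let e : {w : InfinitePlace K' // w.comap (algebraMap K K') = v} ≃ Fin ℓ :=
    Finite.equivFinOfCardEq hcard
  refine ⟨fun j => if h : j < ℓ then (e.symm ⟨j, h⟩).1 else w₀, ⟨?_, ?_⟩, ?_⟩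
  · intro j
    show (if h : j < ℓ then (e.symm ⟨j, h⟩).1 else w₀).comap (algebraMap K K') = v
    by_cases h : j < ℓ
    · rw [dif_pos h]
      exact (e.symm ⟨j, h⟩).2
    · rw [dif_neg h]
      exact hw₀'
  · intro j j' hj hj' hEq
    have hEq' : (if h : j < ℓ then (e.symm ⟨j, h⟩).1 else w₀)
        = (if h : j' < ℓ then (e.symm ⟨j', h⟩).1 else w₀) := hEq
    rw [dif_pos hj, dif_pos hj'] at hEq'
    have h1 : (⟨j, hj⟩ : Fin ℓ) = ⟨j', hj'⟩ := e.symm.injective (Subtype.ext hEq')
    exact congrArg Fin.val h1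
  · intro w' hw'
    refine ⟨(e ⟨w', hw'⟩).1, (e ⟨w', hw'⟩).2, ?_⟩
    show (if h : (e ⟨w', hw'⟩).1 < ℓ then (e.symm ⟨(e ⟨w', hw'⟩).1, h⟩).1 else w₀) = w'
    rw [dif_pos (e ⟨w', hw'⟩).2, Fin.eta, Equiv.symm_apply_apply]

end Fermat.Agent.LT.T7.H910.H519

end
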